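/-
Programme MAZ (S15), brick F-G0 hedge (helper29; split of helper71 14:48Z): inputs (c) and (d) of
`HeckeRed71/CompatGen.exists_descent_along_gen` for the INCLUSION of levels `N ∣ M`:

  `φ  := LevelPullback12.levelIncl hNM : Fbar N →ₐ[ℚ̄] Fbar M`,
  `φt := inclC κ hNM := IntermediateField.inclusion (full_degeneracyC_le κ hNM) :
           FullC κ N →ₐ[κ] FullC κ M`.

* `inclC`, `coe_inclC`;
* `isSeparable_inclC`, `separableAlong_inclC` **(c)** : `κ` perfect of characteristic `p ∤ M`:
  `FullC κ M` is separable over `FullC κ N` along `inclC` (pattern of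
  `Brandt27/DegreeC.isSeparable_alphaC`);
* `hpair_levelIncl` **(d)** : an integral pair `(y, ȳ)` at level `N` is carried by
  `(levelIncl, inclC)` to an integral pair at level `M` (pairs-free form of
  `HeckeRed71/Final.pairs_alpha`: apply it after `obtain ⟨y, hy, hyk, hne, rfl⟩ := hp`);
* `hpair_of_forall_integral` : the `hpair` hypothesis for any set `I` of integral pairs
  (`I := HeckeRed71.Main.pairs A N`, `hI := fun _ hp => hp`).
-/
import Mathlib
import Fermat.Agent.ES.HECKE.LevelPullback12
import Fermat.Agent.T1B.Brandt27.DegreeC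

set_option autoImplicit false
set_option linter.unusedSectionVars false
set_option linter.style.haveILetI false
set_option synthInstance.maxHeartbeats 400000

noncomputable section

open HahnSeries ModularCurve IntermediateField AlgebraicCurve

namespace Fermat.Agent.MAZ.G0Hedge29

open Fermat.Agent.T1B.Brandt27 Fermat.Agent.ES.HECKE Fermat.Agent.RED.PUR
open Fermat.Agent.ES.HECKE.LevelPullback12

/-! ### the inclusion of special fibres -/

section Incl

variable (κ : Type) [Field κ] {N M : ℕ} [NeZero N] [NeZero M] (hNM : N ∣ M)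

/-- the inclusion `FullC κ N → FullC κ M` for `N ∣ M`, as a `κ`-algebra map. -/
def inclC : ↥(modularFunctionFieldFullC κ N) →ₐ[κ] ↥(modularFunctionFieldFullC κ M) :=
  IntermediateField.inclusion (full_degeneracyC_le κ hNM)

@[simp]
theorem coe_inclC (x : ↥(modularFunctionFieldFullC κ N)) :
    ((inclC κ hNM x : ↥(modularFunctionFieldFullC κ M)) : LaurentSeries κ) =
      (x : LaurentSeries κ) :=
  IntermediateField.coe_inclusion _ x

theorem inclC_eq : inclC κ hNM = IntermediateField.inclusion (full_degeneracyC_le κ hNM) := rfl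

end Incl

/-! ### (c) separability -/

section Separable

variable (κ : Type) [Field κ] (p : ℕ) [Fact p.Prime] [CharP κ p] [PerfectField κ]
  {N M : ℕ} [NeZero N] [NeZero M] (hNM : N ∣ M)

/-- **`FullC κ M` is separable over `FullC κ N` along the inclusion** (`κ` perfect, `p ∤ M`). -/
theorem isSeparable_inclC (hpM : ¬ p ∣ M) :
    letI := algebraAlong (inclC κ hNM)
    Algebra.IsSeparable ↥(modularFunctionFieldFullC κ N) ↥(modularFunctionFieldFullC κ M) := by
  letI := algebraAlong (inclC κ hNM)
  refine ⟨fun y => ?_⟩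
  exact isSeparable_along_of_factor κ _ _ (inclC κ hNM)
    (IntermediateField.inclusion (simple_le_fullC' κ N)).toRingHom
    (fun c => by
      rw [coe_inclC]
      exact IntermediateField.coe_inclusion (simple_le_fullC' κ N) c) y
    (isSeparable_of_mem_fullC κ p M hpM y.2)

/-- **(c)** in the Prelude's `SeparableAlong` form. -/
theorem separableAlong_inclC (hpM : ¬ p ∣ M) : SeparableAlong κ (inclC κ hNM) :=
  isSeparable_inclC κ p hNM hpM

/-- the same for the literal `IntermediateField.inclusion`. -/
theorem separableAlong_inclusion (hpM : ¬ p ∣ M) :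
    SeparableAlong κ
      (IntermediateField.inclusion (full_degeneracyC_le κ hNM) :
        ↥(modularFunctionFieldFullC κ N) →ₐ[κ] ↥(modularFunctionFieldFullC κ M)) :=
  separableAlong_inclC κ p hNM hpM

end Separable

/-! ### (d) integral pairs along the inclusion -/

section Pairs

local notation "Qb" => AlgebraicClosure ℚ

variable {A : ValuationSubring Qb} {N M : ℕ} [NeZero N] [NeZero M] (hNM : N ∣ M)

local notation "κ" => IsLocalRing.ResidueField A
local notation "π" => IsLocalRing.residue A

/-- **(d)**: integral pairs at level `N` are carried by `(levelIncl, inclC)` to integral pairs at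
level `M`. -/
theorem hpair_levelIncl {r' : Place Qb (modularFunctionFieldBar M) →
      Place κ (modularFunctionFieldFullC κ M)} (hr' : IsPlaceReductionModL A M r')
    (y : LaurentSeries A) (hy : coeffMap A.subtype y ∈ modularFunctionFieldBar N)
    (hyk : coeffMap π y ∈ modularFunctionFieldFullC κ N) (hne : coeffMap π y ≠ 0)
    (D' : Divisor Qb (modularFunctionFieldBar M))
    (hD' : ∀ w, D' w = w.ord (levelIncl hNM ⟨coeffMap A.subtype y, hy⟩))
    (Q' : Place κ (modularFunctionFieldFullC κ M)) :
    Finsupp.mapDomain r' D' Q' = Q'.ord (inclC κ hNM ⟨coeffMap π y, hyk⟩) := by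
  have hy' : coeffMap A.subtype y ∈ modularFunctionFieldBar M := by
    have := (levelIncl hNM ⟨coeffMap A.subtype y, hy⟩).2
    rwa [coe_levelIncl] at this
  have hyk' : coeffMap π y ∈ modularFunctionFieldFullC κ M := by
    have := (inclC κ hNM ⟨coeffMap π y, hyk⟩).2
    rwa [coe_inclC] at this
  have h1 : (⟨coeffMap A.subtype y, hy'⟩ : ↥(modularFunctionFieldBar M)) =
      levelIncl hNM ⟨coeffMap A.subtype y, hy⟩ := by
    apply Subtype.ext
    rw [coe_levelIncl]
  have h2 : (⟨coeffMap π y, hyk'⟩ : ↥(modularFunctionFieldFullC κ M)) =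
      inclC κ hNM ⟨coeffMap π y, hyk⟩ := by
    apply Subtype.ext
    rw [coe_inclC]
  have := hr'.2 y hy' hyk' hne D' (fun w => by rw [hD' w, h1]) Q'
  rw [this, h2]

/-- **(d)** in set form: for any set `I` of pairs each of which is an integral pair (e.g.
`HeckeRed71.Main.pairs A N`), the `hpair` hypothesis of `exists_descent_along_gen` holds. -/
theorem hpair_of_forall_integral {r' : Place Qb (modularFunctionFieldBar M) →
      Place κ (modularFunctionFieldFullC κ M)} (hr' : IsPlaceReductionModL A M r')
    (I : Set (↥(modularFunctionFieldBar N) × ↥(modularFunctionFieldFullC κ N)))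
    (hI : ∀ p ∈ I, ∃ (y : LaurentSeries A) (hy : coeffMap A.subtype y ∈ modularFunctionFieldBar N)
      (hyk : coeffMap π y ∈ modularFunctionFieldFullC κ N), coeffMap π y ≠ 0 ∧
        p = (⟨coeffMap A.subtype y, hy⟩, ⟨coeffMap π y, hyk⟩)) :
    ∀ p ∈ I, ∀ D' : Divisor Qb (modularFunctionFieldBar M),
      (∀ w, D' w = w.ord (levelIncl hNM p.1)) →
        ∀ Q', Finsupp.mapDomain r' D' Q' = Q'.ord (inclC κ hNM p.2) := by
  intro p hp D' hD' Q'
  obtain ⟨y, hy, hyk, hne, rfl⟩ := hI p hp
  exact hpair_levelIncl hNM hr' y hy hyk hne D' hD' Q'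

end Pairs

end Fermat.Agent.MAZ.G0Hedge29
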