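/-
Programme MAZ (S15), brick F-G0 hedge (helper29): input (a) of
`HeckeRed71/CompatGen.exists_descent_along_gen`: **a place reduction at every level with a
Hauptmodul base**, in particular at the auxiliary level `auxLevel ℓ N` (`= lcm N 4` for odd `ℓ`,
`lcm N 9` for `ℓ = 2`).

* `exists_placeReduction_of_base` : `BaseHyp n e`, `n ∣ M`, `ℓ ∤ M` ⇒ `∃ r', IsPlaceReductionModL A M r'`
  (`ModelAtFinal8.modelAt` + `SPFinal21.hr_main`);
* `reductionInputsModL_of_base` : the same with `PrincipalGeneratedByIntegral`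
  (`ReductionInputsModL A M`);
* `exists_placeReduction_auxLevel`, `reductionInputsModL_auxLevel` : at `M = auxLevel ℓ N`, `ℓ ∤ N`.
-/
import Mathlib
import Fermat.Agent.ES.TOP.SPFinal21
import Fermat.Agent.ES.TOP.ModelAtFinal8

set_option autoImplicit false
set_option linter.unusedSectionVars false
set_option linter.style.haveILetI false
set_option synthInstance.maxHeartbeats 400000

noncomputable section

open AlgebraicCurve ModularCurve IntermediateField

namespace Fermat.Agent.MAZ.G0Hedge29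

open Fermat.Agent.RED.Interface4 Fermat.Agent.RED.BASE Fermat.Agent.RED.BASE.Hauptmodul12
open Fermat.Agent.ES.TOP Fermat.Agent.RED.LVL

/-- **A place reduction at every level with a Hauptmodul base.** -/
theorem exists_placeReduction_of_base {ℓ : ℕ} (hℓ : ℓ.Prime) (A : ValuationSubring Qbar)
    (hA : A.LiesOverPrime ℓ) (n e : ℕ) [NeZero n] (hb : BaseHyp n e) (M : ℕ) [NeZero M]
    (hnM : n ∣ M) (hℓM : ¬ ℓ ∣ M) :
    ∃ r' : Place Qbar ↥(modularFunctionFieldBar M) →
        Place (IsLocalRing.ResidueField ↥A)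
          ↥(modularFunctionFieldFullC (IsLocalRing.ResidueField ↥A) M),
      IsPlaceReductionModL A M r' := by
  obtain ⟨x, hx, T, hS0, hS1, hs0, peel0, peel1⟩ :=
    ModelAtFinal8.modelAt ℓ hℓ A hA n e hb M hnM hℓM
  exact ⟨T.r, SPFinal21.hr_main n e hℓ hℓM (tMem_of_dvd hb hnM) (tGenBase' hb) A hA T hS0 hS1 hs0
    peel0 peel1⟩

/-- `ReductionInputsModL` at every level with a Hauptmodul base. -/
theorem reductionInputsModL_of_base {ℓ : ℕ} (hℓ : ℓ.Prime) (A : ValuationSubring Qbar)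
    (hA : A.LiesOverPrime ℓ) (n e : ℕ) [NeZero n] (hb : BaseHyp n e) (M : ℕ) [NeZero M]
    (hnM : n ∣ M) (hℓM : ¬ ℓ ∣ M) : ReductionInputsModL A M := by
  obtain ⟨r', hr'⟩ := exists_placeReduction_of_base hℓ A hA n e hb M hnM hℓM
  exact ⟨r', hr', SPFinal21.hgen_main hℓ hℓM A hA⟩

/-- **(a)**: a place reduction at the auxiliary level. -/
theorem exists_placeReduction_auxLevel {ℓ : ℕ} (hℓ : ℓ.Prime) (N : ℕ) [NeZero N]
    (hℓN : ¬ ℓ ∣ N) (A : ValuationSubring Qbar) (hA : A.LiesOverPrime ℓ) :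
    ∃ r' : Place Qbar ↥(modularFunctionFieldBar (auxLevel ℓ N)) →
        Place (IsLocalRing.ResidueField ↥A)
          ↥(modularFunctionFieldFullC (IsLocalRing.ResidueField ↥A) (auxLevel ℓ N)),
      IsPlaceReductionModL A (auxLevel ℓ N) r' := by
  haveI := LevelDegree17.neZero_auxLevel ℓ N
  have hℓM : ¬ ℓ ∣ auxLevel ℓ N := not_dvd_auxLevel hℓ hℓN
  by_cases h2 : ℓ = 2
  · haveI : NeZero 9 := ⟨by norm_num⟩
    exact exists_placeReduction_of_base hℓ A hA 9 3 baseHyp_nine (auxLevel ℓ N)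
      (AuxBase8.nine_dvd_auxLevel N h2) hℓM
  · haveI : NeZero 4 := ⟨by norm_num⟩
    exact exists_placeReduction_of_base hℓ A hA 4 8 baseHyp_four (auxLevel ℓ N)
      (AuxBase8.four_dvd_auxLevel N h2) hℓM

/-- `ReductionInputsModL` at the auxiliary level. -/
theorem reductionInputsModL_auxLevel {ℓ : ℕ} (hℓ : ℓ.Prime) (N : ℕ) [NeZero N]
    (hℓN : ¬ ℓ ∣ N) (A : ValuationSubring Qbar) (hA : A.LiesOverPrime ℓ) :
    ReductionInputsModL A (auxLevel ℓ N) := by
  haveI := LevelDegree17.neZero_auxLevel ℓ N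
  obtain ⟨r', hr'⟩ := exists_placeReduction_auxLevel hℓ N hℓN A hA
  exact ⟨r', hr', SPFinal21.hgen_main hℓ (not_dvd_auxLevel hℓ hℓN) A hA⟩

end Fermat.Agent.MAZ.G0Hedge29
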